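import Fermat.Agent.S17.H500.TopFinal
import Fermat.Agent.S17.H77.TopNC
import Fermat.Agent.S17.H696.TopMink
import Fermat.Agent.S17.H736.TopMov1
import Fermat.Agent.S17.H736.TopMov2

/-!
# S17 / tower H : TOP is COMPLETE modulo WALL + GAUSS (architect helper500)

* `northcott736 T : T.NorthcottStatement` for the canonical data `H736.TopInput N`
  (adapter of `H77.northcott`, via `H50.northcott_cycle_abs`);
* `WallInputs N` : the ONLY remaining inputs of tower H:
  `E3`, `ADJ`, `VDM` (WALL, for every embedding of degree `≥ 4g + 1`) and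
  `GaussRt` (GAUSS, for the embeddings `ptD`/`tnD` at the cusp with Galois-fixed basis);
* `hasDescentHeight_of_wallInputs : WallInputs N → HasDescentHeight N 2`.

Everything here is complete.
-/

set_option autoImplicit false

noncomputable section

open AlgebraicCurve ModularCurve

namespace Fermat.Agent.S17.H500.Final

open Fermat.Agent.Lib.RR Fermat.Agent.S17.HWall Fermat.Agent.S17.HContract
open Fermat.Agent.S17.H77 Fermat.Agent.S17.H680 Fermat.Agent.S17.H736

/-- **Northcott** for the canonical data. -/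
theorem northcott736 {N : ℕ} [NeZero N] (T : TopInput N) : T.NorthcottStatement := by
  intro e B
  have hfin := Fermat.Agent.S17.H50.northcott_cycle_abs (ι := Fin (T.E₂.r + 1)) e B
  refine Set.Finite.of_finite_image (f := fun D : Dv N => cyc T.E₂ D.1) (hfin.subset ?_) ?_
  · rintro _ ⟨D, ⟨hdeg, hN⟩, rfl⟩
    refine ⟨?_, isGStable_cyc T.E₂ T.x_fixed T.isInvariant_vinf₂ D.isInvariant,
      cyc_normalised T.E₂ _, ?_⟩
    · have h1 := card_cyc T.E₂ D.nonneg
      have h2 := coe_degHom D
      have h3 : ((cyc T.E₂ D.1).card : ℤ) = (degHom N D : ℕ) := by rw [h1, h2]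
      have h4 : (cyc T.E₂ D.1).card = degHom N D := by exact_mod_cast h3
      rw [h4]
      exact hdeg
    · rw [cycAbs_cyc T.E₂ D.nonneg]
      exact hN
  · intro D _ D' _ h
    exact Subtype.ext (cyc_injOn T.E₂ D.nonneg D'.nonneg h)

/-- **The only remaining inputs of tower H** (genus `≥ 1`): the WALL and GAUSS. -/
structure WallInputs (N : ℕ) [NeZero N] : Prop where
  wall_e3 : ∀ E : EmbData Qb (modularFunctionFieldBar N),
    4 * genusR Qb (modularFunctionFieldBar N) + 1 ≤ E.m → E3Statement E E
  wall_adj : ∀ E : EmbData Qb (modularFunctionFieldBar N),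
    4 * genusR Qb (modularFunctionFieldBar N) + 1 ≤ E.m → ADJStatement E E
  wall_vdm : ∀ (E : EmbData Qb (modularFunctionFieldBar N)) (d₀ : ℕ),
    4 * genusR Qb (modularFunctionFieldBar N) + 1 ≤ E.m →
    d₀ + 2 * genusR Qb (modularFunctionFieldBar N) ≤ E.m + 1 → VDMStatement E E d₀
  gauss : ∀ E : EmbData Qb (modularFunctionFieldBar N), E.vinf = JZero.cusp N →
    (∀ i, IsFixed (modularFunctionFieldFull N) (E.x i)) →
    4 * genusR Qb (modularFunctionFieldBar N) + 1 ≤ E.m →
    E.pt = Fermat.Agent.S17.H230.ptD (E.m • prim (JZero.cusp N)) E.x →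
    E.tn = Fermat.Agent.S17.H230.tnD (E.m • prim (JZero.cusp N)) E.x →
    ∃ Rt : Divisor Qb (modularFunctionFieldBar N), 0 ≤ Rt ∧
      IsInvariant (modularFunctionFieldFull N) Rt ∧ Rt (JZero.cusp N) = 0 ∧
      Fermat.Agent.S17.H35.GaussRtStatement E Rt
        (Divisor.degree Rt - (2 * (genusR Qb (modularFunctionFieldBar N) : ℤ) - 2))

/-- The open inputs from the wall inputs. -/
theorem openInputs_of_wallInputs (N : ℕ) [NeZero N] (h : WallInputs N) : OpenInputs N where
  wall_e3 := h.wall_e3
  wall_adj := h.wall_adj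
  wall_vdm := h.wall_vdm
  gauss := h.gauss
  northcott := northcott736
  mov1 := fun T => T.mov1
  mov2 := fun T => T.mov2
  mink := Fermat.Agent.S17.H696.topMink

/-- **Tower H from the WALL and GAUSS.** -/
theorem hasDescentHeight_of_wallInputs (N : ℕ) [NeZero N] (h : WallInputs N) :
    Fermat.Agent.S17.H17.HasDescentHeight N 2 :=
  hasDescentHeight_of_openInputs N (openInputs_of_wallInputs N h)

end Fermat.Agent.S17.H500.Final
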