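import Mathlib.RingTheory.Nullstellensatz
import Mathlib.RingTheory.MvPolynomial.Homogeneous
import Mathlib.NumberTheory.Height.MvPolynomial
import Mathlib.FieldTheory.IsAlgClosed.AlgebraicClosure

/-!
# Projective Nullstellensatz certificates and height lower bounds on closed cones

Mathlib's lower bound `Height.logHeight_eval_ge` for the height of `(p j (x))_j` needs, as a
hypothesis, a *certificate*: homogeneous polynomials `q (k, j)` of degree `M` with
`∑ j, q (k, j) (x) * p j (x) = x k ^ (M + N)`.  This file produces the certificate from the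
geometric hypothesis "the `p j` have no common zero, except the origin, on the cone cut out by a
homogeneous ideal `I`" (checked over any algebraically closed extension `L` of the ground field),
and derives the height inequality

  `C + N * logHeight x ≤ logHeight (fun j ↦ (p j).eval x)`   for all `x` in the cone of `I`.

Mathlib-only; route-independent tool for the heights tower of row S17.

* `exists_certificate`       : the certificate modulo `I`
* `exists_certificate_eval`  : the certificate evaluated at the points of the cone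
* `logHeight_eval_ge_on`     : the height lower bound on the cone
* `abs_logHeight_eval_sub_le_on` : two-sided bound `|h(p(x)) - N h(x)| ≤ C` on the cone
-/

set_option autoImplicit false

noncomputable section

namespace Fermat.Agent.S17.H500

open MvPolynomial

variable {k : Type*} [Field k] {ι ι' : Type*}

/-- Elementary form of homogeneity of an ideal of a polynomial ring: closed under taking
homogeneous components. -/
def HomIdeal (I : Ideal (MvPolynomial ι k)) : Prop :=
  ∀ f ∈ I, ∀ n : ℕ, homogeneousComponent n f ∈ I

theorem homIdeal_bot : HomIdeal (⊥ : Ideal (MvPolynomial ι k)) := by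
  intro f hf n
  rw [Ideal.mem_bot] at hf
  subst hf
  simp

/-- The homogeneous component of degree `M + N` of `c * p`, `p` homogeneous of degree `N`. -/
theorem homogeneousComponent_add_mul_of_isHomogeneous {M N : ℕ} (c : MvPolynomial ι k)
    {p : MvPolynomial ι k} (hp : p.IsHomogeneous N) :
    homogeneousComponent (M + N) (c * p) = homogeneousComponent M c * p := by
  classical
  conv_lhs => rw [← sum_homogeneousComponent c, Finset.sum_mul, map_sum]
  have key : ∀ n : ℕ, homogeneousComponent (M + N) (homogeneousComponent n c * p) =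
      if n = M then homogeneousComponent M c * p else 0 := by
    intro n
    have hh : (homogeneousComponent n c * p).IsHomogeneous (n + N) :=
      (homogeneousComponent_isHomogeneous n c).mul hp
    rw [homogeneousComponent_of_mem hh]
    by_cases hn : n = M
    · subst hn; simp
    · have hne : ¬ (M = n) := fun h => hn h.symm
      simp [hn, hne]
  simp_rw [key]
  rw [Finset.sum_ite_eq']
  split_ifs with h
  · rfl
  · have : homogeneousComponent M c = 0 := by
      apply homogeneousComponent_eq_zero
      simp only [Finset.mem_range, not_lt] at h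
      omega
    simp [this]

/-- **Projective Nullstellensatz certificate.**  Let `I` be a homogeneous ideal and `p j`
homogeneous polynomials of degree `N` over a field `k` such that, over some algebraically closed
extension `L`, the only common zero of `I` and the `p j` is the origin.  Then there are `M` and
homogeneous polynomials `q (i, j)` of degree `M` with
`∑ j, q (i, j) * p j ≡ X i ^ (M + N)  (mod I)` for every variable `i`. -/
theorem exists_certificate [Finite ι] [Fintype ι'] (L : Type*) [Field L] [Algebra k L]
    [IsAlgClosed L] (I : Ideal (MvPolynomial ι k)) (hI : HomIdeal I) {N : ℕ}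
    (p : ι' → MvPolynomial ι k) (hp : ∀ j, (p j).IsHomogeneous N)
    (h0 : ∀ x : ι → L, (∀ f ∈ I, aeval x f = 0) → (∀ j, aeval x (p j) = 0) → x = 0) :
    ∃ (M : ℕ) (q : ι × ι' → MvPolynomial ι k), (∀ a, (q a).IsHomogeneous M) ∧
      ∀ i, (∑ j, q (i, j) * p j) - X i ^ (M + N) ∈ I := by
  classical
  set J : Ideal (MvPolynomial ι k) := I ⊔ Ideal.span (Set.range p) with hJ
  -- every variable lies in the radical of `J`
  have hrad : ∀ i : ι, (X i : MvPolynomial ι k) ∈ J.radical := by
    intro i
    rw [← vanishingIdeal_zeroLocus_eq_radical (K := L) J, mem_vanishingIdeal_iff]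
    intro x hx
    have hx0 : x = 0 := by
      apply h0 x
      · intro f hf
        exact hx f (Ideal.mem_sup_left hf)
      · intro j
        exact hx (p j) (Ideal.mem_sup_right (Ideal.subset_span ⟨j, rfl⟩))
    simp [hx0]
  choose e he using hrad
  obtain ⟨M, hM⟩ : ∃ M : ℕ, ∀ i, e i ≤ M := by
    obtain ⟨M, hM⟩ := (Set.finite_range e).bddAbove
    exact ⟨M, fun i => hM ⟨i, rfl⟩⟩
  have hXJ : ∀ i : ι, (X i : MvPolynomial ι k) ^ (M + N) ∈ J := by
    intro i
    have : M + N = (M + N - e i) + e i := by have := hM i; omega
    rw [this, pow_add]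
    exact Ideal.mul_mem_left _ _ (he i)
  -- decompose
  have hdec : ∀ i : ι, ∃ (f : MvPolynomial ι k) (c : ι' → MvPolynomial ι k), f ∈ I ∧
      f + ∑ j, c j * p j = X i ^ (M + N) := by
    intro i
    obtain ⟨f, hf, g, hg, hfg⟩ := Submodule.mem_sup.mp (hXJ i)
    obtain ⟨c, hc⟩ := (Ideal.mem_span_range_iff_exists_fun).mp hg
    exact ⟨f, c, hf, by rw [hc]; exact hfg⟩
  choose f c hf hfc using hdec
  refine ⟨M, fun a => homogeneousComponent M (c a.1 a.2),
    fun a => homogeneousComponent_isHomogeneous _ _, fun i => ?_⟩
  have h1 := congrArg (homogeneousComponent (M + N)) (hfc i)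
  rw [map_add, map_sum] at h1
  simp_rw [homogeneousComponent_add_mul_of_isHomogeneous _ (hp _)] at h1
  have h2 : homogeneousComponent (M + N) ((X i : MvPolynomial ι k) ^ (M + N)) = X i ^ (M + N) :=
    homogeneousComponent_of_mem ((isHomogeneous_X k i).pow (M + N)) |>.trans (by simp)
  rw [h2] at h1
  have h3 : (∑ j, homogeneousComponent M (c i j) * p j) - X i ^ (M + N) =
      -homogeneousComponent (M + N) (f i) := by
    rw [← h1]; ring
  simp only
  rw [h3]
  exact I.neg_mem (hI _ (hf i) _)

/-- The certificate of `exists_certificate`, evaluated at the `k`-points of the cone of `I`: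
exactly the hypothesis of `Height.logHeight_eval_ge`. -/
theorem exists_certificate_eval [Finite ι] [Fintype ι'] (L : Type*) [Field L] [Algebra k L]
    [IsAlgClosed L] (I : Ideal (MvPolynomial ι k)) (hI : HomIdeal I) {N : ℕ}
    (p : ι' → MvPolynomial ι k) (hp : ∀ j, (p j).IsHomogeneous N)
    (h0 : ∀ x : ι → L, (∀ f ∈ I, aeval x f = 0) → (∀ j, aeval x (p j) = 0) → x = 0) :
    ∃ (M : ℕ) (q : ι × ι' → MvPolynomial ι k), (∀ a, (q a).IsHomogeneous M) ∧
      ∀ x : ι → k, (∀ f ∈ I, eval x f = 0) →
        ∀ i, ∑ j, (q (i, j)).eval x * (p j).eval x = x i ^ (M + N) := by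
  obtain ⟨M, q, hq, hqI⟩ := exists_certificate L I hI p hp h0
  refine ⟨M, q, hq, fun x hx i => ?_⟩
  have := hx _ (hqI i)
  simpa [sub_eq_zero] using this

variable [Height.AdmissibleAbsValues k]

/-- **Height lower bound on a closed cone.**  If the homogeneous polynomials `p j` of degree `N`
have no common zero other than the origin on the cone of the homogeneous ideal `I`
(over an algebraically closed extension `L`), then for all `k`-points `x` of the cone
`C + N * logHeight x ≤ logHeight (p j (x))_j`. -/
theorem logHeight_eval_ge_on [Finite ι] [Fintype ι'] (L : Type*) [Field L] [Algebra k L]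
    [IsAlgClosed L] (I : Ideal (MvPolynomial ι k)) (hI : HomIdeal I) {N : ℕ}
    (p : ι' → MvPolynomial ι k) (hp : ∀ j, (p j).IsHomogeneous N)
    (h0 : ∀ x : ι → L, (∀ f ∈ I, aeval x f = 0) → (∀ j, aeval x (p j) = 0) → x = 0) :
    ∃ C : ℝ, ∀ x : ι → k, (∀ f ∈ I, eval x f = 0) →
      C + N * Height.logHeight x ≤ Height.logHeight (fun j ↦ (p j).eval x) := by
  obtain ⟨M, q, hq, hcert⟩ := exists_certificate_eval L I hI p hp h0
  obtain ⟨C, hC⟩ := Height.logHeight_eval_ge' (K := k) (M := M) (N := N) hq
  exact ⟨C, fun x hx => hC p (hcert x hx)⟩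

/-- Two-sided version: `|logHeight (p (x)) - N * logHeight x| ≤ C` on the cone of `I`. -/
theorem abs_logHeight_eval_sub_le_on [Finite ι] [Fintype ι'] (L : Type*) [Field L] [Algebra k L]
    [IsAlgClosed L] (I : Ideal (MvPolynomial ι k)) (hI : HomIdeal I) {N : ℕ}
    (p : ι' → MvPolynomial ι k) (hp : ∀ j, (p j).IsHomogeneous N)
    (h0 : ∀ x : ι → L, (∀ f ∈ I, aeval x f = 0) → (∀ j, aeval x (p j) = 0) → x = 0) :
    ∃ C : ℝ, ∀ x : ι → k, (∀ f ∈ I, eval x f = 0) →
      |Height.logHeight (fun j ↦ (p j).eval x) - N * Height.logHeight x| ≤ C := by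
  obtain ⟨C₁, hC₁⟩ := Height.logHeight_eval_le' (K := k) hp
  obtain ⟨C₂, hC₂⟩ := logHeight_eval_ge_on L I hI p hp h0
  refine ⟨max C₁ (-C₂), fun x hx => abs_sub_le_iff.mpr ⟨?_, ?_⟩⟩
  · have := hC₁ x
    have h2 := le_max_left C₁ (-C₂)
    linarith
  · have := hC₂ x hx
    have h2 := le_max_right C₁ (-C₂)
    linarith

end Fermat.Agent.S17.H500
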