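import Fermat.Agent.S17.H500.Package
import Mathlib.FieldTheory.IsAlgClosed.AlgebraicClosure
import Mathlib.FieldTheory.Galois.Basic
import Mathlib.NumberTheory.Padics.PadicNorm
import Mathlib.Algebra.BigOperators.Finprod
import Mathlib.Data.Finsupp.Basic
import Mathlib.LinearAlgebra.LinearIndependent.Defs
import Mathlib.Analysis.Normed.Ring.Basic
import Mathlib.Algebra.Order.AbsoluteValue.Basic
import Mathlib.Algebra.Algebra.Equiv
import Mathlib.GroupTheory.GroupAction.Defs

/-!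
# S17 / tower H (architect helper500): the LOCAL PACKAGE  (definitions only)

Interface between

* the SEMI-LOCAL layer S  (`LocalPackage A` ⟹ `PairingPackage A`: sum the local statements over
  the places of `ℚ`, product formula on `ℚ`, Siegel's lemma, Northcott for cycles), and
* the GEOMETRIC/LOCAL layer G  (construction of a `LocalPackage (MW N)` for `J₀(N)`:
  points = places of `ℚ̄(X₀(N))`, coordinates = values of a Galois-fixed basis `x₀ = 1, …, x_r`
  of `L(m ∞)`, `mult a P` = order of vanishing of the section `a`, local lemma (L1) via Chow forms).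

Foundation: helper50's LOC (`Fermat/Agent/S17/H50/LocAbs.lean`): ONE absolute value `absv v` of
`ℚ̄` above every place `v` of `ℚ` (`none` = the infinite place).  Global quantities are only formed
for Galois-stable cycles and rational vectors.
-/

set_option autoImplicit false

noncomputable section

namespace Fermat.Agent.S17.H500

/-- `ℚ̄` -/
abbrev QbarH : Type := AlgebraicClosure ℚ

/-- the absolute Galois group of `ℚ` -/
abbrev GalH : Type := QbarH ≃ₐ[ℚ] QbarH

/-- places of `ℚ` (`none` = infinite place) -/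
abbrev PlaceH : Type := Option Nat.Primes

section LocalNorms

variable (absv : PlaceH → AbsoluteValue QbarH ℝ) {n : ℕ}

/-- local sup norm of a vector -/
def nrm (v : PlaceH) (y : Fin n → QbarH) : ℝ := ⨆ i, absv v (y i)

/-- local sup norm of the wedge `y ∧ z` -/
def nrm2 (v : PlaceH) (y z : Fin n → QbarH) : ℝ :=
  ⨆ ij : Fin n × Fin n, absv v (y ij.1 * z ij.2 - y ij.2 * z ij.1)

/-- value of the linear form `a` at the vector `y` -/
def evl (a y : Fin n → QbarH) : QbarH := ∑ i, a i * y i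

/-- local diagonal height `λ_v(y,z) = -log (|y ∧ z|_v / (|y|_v |z|_v))` -/
def lamv (v : PlaceH) (y z : Fin n → QbarH) : ℝ :=
  Real.log (nrm absv v y) + Real.log (nrm absv v z) - Real.log (nrm2 absv v y z)

end LocalNorms

/-- The local package of route H-D on an abelian group `A` (think `A = MW N`). -/
structure LocalPackage (A : Type) [AddCommGroup A] where
  /-- one absolute value of `ℚ̄` above each place of `ℚ` -/
  absv : PlaceH → AbsoluteValue QbarH ℝ
  absv_rat_inf : ∀ q : ℚ, absv none (algebraMap ℚ QbarH q) = |(q : ℝ)|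
  absv_rat_prime : ∀ (p : Nat.Primes) (q : ℚ),
    absv (some p) (algebraMap ℚ QbarH q) = (padicNorm p.1 q : ℝ)
  absv_nonarch : ∀ (p : Nat.Primes) (a b : QbarH),
    absv (some p) (a + b) ≤ max (absv (some p) a) (absv (some p) b)
  absv_finite : ∀ α : QbarH, α ≠ 0 → {v : PlaceH | absv v α ≠ 1}.Finite
  /-- points = places of the function field -/
  Pt : Type
  [instAct : MulAction GalH Pt]
  /-- `r + 1 = dim L(m ∞)` -/
  r : ℕ
  /-- projective coordinates: `x P 0 = 1` for `P ≠ ∞`, `x ∞ = (0, …, 0, 1)` -/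
  x : Pt → Fin (r + 1) → QbarH
  /-- derivative of the coordinates w.r.t. the fixed rational function `t` -/
  x' : Pt → Fin (r + 1) → QbarH
  /-- `mult a P` = order of vanishing at `P` of the section `a` of `O(m ∞)`; `Z_a = ∑ mult a P • P` -/
  mult : (Fin (r + 1) → QbarH) → Pt →₀ ℕ
  /-- the point at infinity -/
  inf : Pt
  /-- finite ramification divisor of `t` (zeros of `dt` away from `∞`) -/
  Rt : Pt →₀ ℕ
  m : ℕ
  d : ℕ
  g : ℕ
  one_le_g : 1 ≤ g
  two_g_le_d : 2 * g ≤ d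
  four_d_le_m : 4 * d + 2 * g ≤ m
  -- points and coordinates
  inf_fixed : ∀ σ : GalH, σ • inf = inf
  x_equiv : ∀ (σ : GalH) (P : Pt) (i : Fin (r + 1)), x (σ • P) i = σ (x P i)
  x'_equiv : ∀ (σ : GalH) (P : Pt) (i : Fin (r + 1)), x' (σ • P) i = σ (x' P i)
  x_zero : ∀ P : Pt, P ≠ inf → x P 0 = 1
  x_inf : x inf = Pi.single (Fin.last r) 1
  x_sep : ∀ P Q : Pt, P ≠ Q → ∃ i j, x P i * x Q j - x P j * x Q i ≠ 0
  x_imm : ∀ P : Pt, P ≠ inf → Rt P = 0 → ∃ i j, x P i * x' P j - x P j * x' P i ≠ 0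
  Rt_inv : ∀ (σ : GalH) (P : Pt), Rt (σ • P) = Rt P
  Rt_inf : Rt inf = 0
  -- hyperplane sections
  mult_deg : ∀ a : Fin (r + 1) → QbarH, a ≠ 0 → ((mult a).sum fun _ n => n) = m
  mult_ne_zero_iff : ∀ (a : Fin (r + 1) → QbarH) (P : Pt), a ≠ 0 →
    (mult a P ≠ 0 ↔ evl a (x P) = 0)
  mult_equiv : ∀ (σ : GalH) (a : Fin (r + 1) → QbarH) (P : Pt),
    mult (fun i => σ (a i)) (σ • P) = mult a P
  evl'_ne_zero : ∀ (a : Fin (r + 1) → QbarH) (P : Pt), P ≠ inf → Rt P = 0 → mult a P = 1 →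
    evl a (x' P) ≠ 0
  /-- the points of a reduced divisor of degree `≤ d` impose independent conditions -/
  indep : ∀ s : Finset Pt, s.card ≤ d → LinearIndependent QbarH (fun P : s => x (P : Pt))
  /-- class of `D - deg D • ∞` for Galois-invariant effective `D` -/
  cls : (Pt →₀ ℕ) → A
  cls_add : ∀ D E : Pt →₀ ℕ, (∀ (σ : GalH) P, D (σ • P) = D P) →
    (∀ (σ : GalH) P, E (σ • P) = E P) → cls (D + E) = cls D + cls E
  cls_inf : cls (Finsupp.single inf 1) = 0
  cls_mult : ∀ a : Fin (r + 1) → ℚ, a ≠ 0 → cls (mult fun i => algebraMap ℚ QbarH (a i)) = 0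
  /-- (Mov1) -/
  mov1 : ∀ (x₀ : A) (T : Finset Pt), ∃ D : Pt →₀ ℕ, (∀ (σ : GalH) P, D (σ • P) = D P) ∧
    (D.sum fun _ n => n) = d ∧ cls D = x₀ ∧ Disjoint D.support T ∧
    (∀ P, D P ≤ 1) ∧ D inf = 0 ∧ (∀ P, D P ≠ 0 → Rt P = 0)
  /-- (Mov2) -/
  mov2 : ∀ D₁ D₂ : Pt →₀ ℕ, (∀ (σ : GalH) P, D₁ (σ • P) = D₁ P) →
    (∀ (σ : GalH) P, D₂ (σ • P) = D₂ P) →
    (D₁.sum fun _ n => n) = (D₂.sum fun _ n => n) → (D₁.sum fun _ n => n) + 2 * g ≤ m →
    cls D₁ = cls D₂ → ∀ T : Finset Pt,
    ∃ (R : Pt →₀ ℕ) (a₁ a₂ : Fin (r + 1) → ℚ), a₁ ≠ 0 ∧ a₂ ≠ 0 ∧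
      (∀ (σ : GalH) P, R (σ • P) = R P) ∧
      mult (fun i => algebraMap ℚ QbarH (a₁ i)) = D₁ + R ∧
      mult (fun i => algebraMap ℚ QbarH (a₂ i)) = D₂ + R ∧ Disjoint R.support T
  /-- (Mov3) `m + 1` rational hyperplane sections with pairwise disjoint supports -/
  mov3 : ∃ b : Fin (m + 1) → Fin (r + 1) → ℚ, (∀ j, b j ≠ 0) ∧ ∀ j j', j ≠ j' →
    Disjoint (mult fun i => algebraMap ℚ QbarH (b j i)).support
      (mult fun i => algebraMap ℚ QbarH (b j' i)).support
  /-- (L1) the uniform local lemma -/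
  l1 : ∃ C : PlaceH → ℝ, (Function.support C).Finite ∧ (∀ v, 0 ≤ C v) ∧
    ∀ (v : PlaceH) (a : Fin (r + 1) → QbarH) (P : Pt), evl a (x P) ≠ 0 →
      |((mult a).sum fun A n => (n : ℝ) * lamv absv v (x A) (x P))
        + Real.log (absv v (evl a (x P))) - Real.log (nrm absv v a)
        - Real.log (nrm absv v (x P))| ≤ C v
  /-- (L1') first order version at a simple zero -/
  l1' : ∃ C : PlaceH → ℝ, (Function.support C).Finite ∧ (∀ v, 0 ≤ C v) ∧
    ∀ (v : PlaceH) (a : Fin (r + 1) → QbarH) (P : Pt), P ≠ inf → Rt P = 0 → mult a P = 1 →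
      |(((mult a).erase P).sum fun A n => (n : ℝ) * lamv absv v (x A) (x P))
        + Real.log (absv v (evl a (x' P))) + Real.log (nrm absv v (x P))
        - Real.log (nrm absv v a) - Real.log (nrm2 absv v (x P) (x' P))| ≤ C v
  /-- (LW) local Gauss statement: the tangent vector versus the canonical divisor
  `K₀ = Rt - (deg Rt - (2g - 2)) ∞` -/
  lw : ∃ C : PlaceH → ℝ, (Function.support C).Finite ∧ (∀ v, 0 ≤ C v) ∧
    ∀ (v : PlaceH) (P : Pt), P ≠ inf → Rt P = 0 →
      |Real.log (nrm2 absv v (x P) (x' P)) - 2 * Real.log (nrm absv v (x P))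
        - ((Rt.sum fun B n => (n : ℝ) * lamv absv v (x B) (x P))
          - (((Rt.sum fun _ n => n) : ℝ) - (2 * g - 2)) * lamv absv v (x inf) (x P))| ≤ C v

attribute [instance] LocalPackage.instAct

/-- S (semi-local layer): a local package gives a pairing package. -/
def SemiLocalStatement : Prop :=
  ∀ (A : Type) [AddCommGroup A], Nonempty (LocalPackage A) → Nonempty (PairingPackage A)

end Fermat.Agent.S17.H500
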