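import Mathlib.Algebra.Group.Hom.Defs
import Mathlib.Algebra.Order.AbsoluteValue.Basic
import Mathlib.Analysis.SpecialFunctions.Log.Basic
import Mathlib.Data.Real.Basic
import Mathlib.Data.Set.Finite.Basic

/-!
# S17 / tower H (architect helper500): the GLOBAL PAIRING PACKAGE  (definitions only)

Route H-D (`origin/helper500:coord/S17-H-helper500.md`, checked by helper680/110/380/980/920).
This file fixes the interface between

* the FORMAL layer  (`PairingPackage A` ⟹ inputs of `H737.descent_data_of_pairing_height`), and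
* the GEOMETRIC/LOCAL layer (construction of a `PairingPackage (MW N)` for `J₀(N)`).

Dictionary (for `A = MW N`, `F = ℚ̄(X₀(N))`, `∞` = the rational cusp, `x₀ = 1, …, x_r` a basis of
Galois-fixed functions of `L(m ∞)`):

* `Dv`   : effective Galois-invariant divisors (`∞` allowed);  `deg`, `cls D = [D - deg D • ∞]`;
* `Disj` : disjoint supports;  `Good D` : `D` reduced, avoiding `∞` and the ramification `Rt` of `t`;
* `N D`  : naive height `∑_P D(P) h(x P)`;  `pr D E = ∑ D(P) E(Q) hD(P,Q)` (diagonal height);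
* `Lin`  : nonzero rational linear forms `a ∈ L(m ∞)` ; `ht a` its height; `Z a = div a + m ∞`;
* `δ D = ∑_{P<Q} hD(P,Q)`, `K D = ∑_P (h(W P) - 2 h(x P))` (`W` = tangent Plücker vector w.r.t. `t`),
  `Pl D = h(x P₁ ∧ … ∧ x P_d)` (Plücker height of the annihilator of `L(m ∞ - D)`).

All constants are existential.  Everything here is complete (definitions only) and Mathlib-only.
-/

set_option autoImplicit false

namespace Fermat.Agent.S17.H500

/-- The global pairing package of route H-D on an abelian group `A`. -/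
structure PairingPackage (A : Type) [AddCommGroup A] where
  /-- effective rational divisors -/
  Dv : Type
  [instDv : AddCommMonoid Dv]
  /-- degree -/
  deg : Dv →+ ℕ
  /-- class of `D - deg D • ∞` -/
  cls : Dv →+ A
  /-- disjoint supports -/
  Disj : Dv → Dv → Prop
  /-- generic: reduced, avoiding `∞` and `Rt` -/
  Good : Dv → Prop
  /-- naive height -/
  N : Dv → ℝ
  /-- diagonal pairing -/
  pr : Dv → Dv → ℝ
  /-- off-diagonal self pairing -/
  δ : Dv → ℝ
  /-- tangent term -/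
  K : Dv → ℝ
  /-- Plücker height -/
  Pl : Dv → ℝ
  /-- nonzero rational linear forms -/
  Lin : Type
  /-- height of a linear form -/
  ht : Lin → ℝ
  /-- hyperplane section -/
  Z : Lin → Dv
  /-- degree of the embedding -/
  m : ℕ
  /-- degree of the representatives -/
  d : ℕ
  /-- genus -/
  g : ℕ
  /-- the point at infinity -/
  inf : Dv
  /-- the constant function `1` -/
  one : Lin
  /-- finite ramification divisor of the coordinate `t` -/
  Rt : Dv
  -- numerical conditions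
  one_le_g : 1 ≤ g
  two_g_le_d : 2 * g ≤ d
  four_d_le_m : 4 * d + 2 * g ≤ m
  -- structure
  disj_symm : ∀ D E, Disj D E → Disj E D
  disj_zero : ∀ E, Disj 0 E
  disj_add_left : ∀ D₁ D₂ E, Disj (D₁ + D₂) E ↔ Disj D₁ E ∧ Disj D₂ E
  deg_inf : deg inf = 1
  cls_inf : cls inf = 0
  deg_Z : ∀ a, deg (Z a) = m
  cls_Z : ∀ a, cls (Z a) = 0
  Z_one : Z one = m • inf
  ht_one : ht one = 0
  good_disj_inf : ∀ D, Good D → Disj D inf
  good_disj_Rt : ∀ D, Good D → Disj D Rt
  N_add : ∀ D E, N (D + E) = N D + N E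
  N_nonneg : ∀ D, 0 ≤ N D
  pr_symm : ∀ D E, pr D E = pr E D
  pr_add : ∀ D₁ D₂ E, Disj (D₁ + D₂) E → pr (D₁ + D₂) E = pr D₁ E + pr D₂ E
  /-- Northcott for the naive height on effective rational divisors of bounded degree -/
  northcott : ∀ (e : ℕ) (B : ℝ), {D : Dv | deg D ≤ e ∧ N D ≤ B}.Finite
  /-- (Mov1) generic representatives of degree `d` -/
  mov1 : ∀ (x : A) (T : Dv), ∃ D, deg D = d ∧ cls D = x ∧ Disj D T ∧ Good D
  /-- (Mov2) linear equivalence is realised by hyperplane sections with a common generic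
  residual divisor -/
  mov2 : ∀ D₁ D₂, deg D₁ = deg D₂ → deg D₁ + 2 * g ≤ m → cls D₁ = cls D₂ → ∀ T,
    ∃ (R : Dv) (a₁ a₂ : Lin), Z a₁ = D₁ + R ∧ Z a₂ = D₂ + R ∧ Disj R T
  /-- (E3) pairing with a hyperplane section, uniformly in the hyperplane -/
  e3 : ∃ C : ℝ, ∀ a E, Disj (Z a) E → |pr (Z a) E - (deg E * ht a + N E)| ≤ C * deg E
  /-- (BEZ) height of a hyperplane section -/
  bez : ∃ C : ℝ, ∀ a, |N (Z a) - m * ht a| ≤ C
  /-- (ADJ) (E3) at simple zeros, with the regularised self pairing -/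
  adj : ∃ C : ℝ, ∀ a D D', Good D → Z a = D + D' → Disj D D' →
    |2 * δ D - K D + pr D' D - (deg D * ht a + N D)| ≤ C * deg D
  /-- (GAUSS) the tangent term is the pairing with a canonical divisor -/
  gauss : ∃ C : ℝ, ∀ D, Good D →
    |K D - (pr Rt D - (((deg Rt : ℝ) - (2 * g - 2)) / m) * N D)| ≤ C * deg D
  /-- (VDM) Vandermonde bound for the Plücker height -/
  vdm : ∃ C : ℝ, ∀ D, Good D → deg D = d → Pl D ≤ N D - δ D + C
  /-- (MINK) a small rational section through `D` -/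
  mink : ∃ C : ℝ, ∀ D, Good D → deg D = d →
    ∃ (a : Lin) (D' : Dv), Z a = D + D' ∧ ((m : ℝ) - d + 1 - g) * ht a ≤ Pl D + C

attribute [instance] PairingPackage.instDv

namespace PairingPackage

variable {A : Type} [AddCommGroup A] (P : PairingPackage A)

/-- The normalised pairing `B(D,E) = (D - deg D ∞ . E - deg E ∞)` without the `(∞.∞)` term:
`pr D E - (deg D / m) N E - (deg E / m) N D`. -/
noncomputable def B (D E : P.Dv) : ℝ :=
  P.pr D E - ((P.deg D : ℝ) / P.m) * P.N E - ((P.deg E : ℝ) / P.m) * P.N D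

/-- The class function attached to the tangent term: `L D = pr Rt D - (deg Rt / m) N D`. -/
noncomputable def L (D : P.Dv) : ℝ :=
  P.pr P.Rt D - ((P.deg P.Rt : ℝ) / P.m) * P.N D

/-- `k = dim L(m ∞ - D) = m - d + 1 - g`. -/
noncomputable def k : ℝ := (P.m : ℝ) - P.d + 1 - P.g

/-! ## Statements of the formal leaves (Spec pattern: prove `theorem foo : FooStatement P`
from the hypotheses listed in `coord/S17-HSkel.md`) -/

/-- F-B: `B (Z a) E` is bounded; hence `B inf E` is bounded. -/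
def BZStatement : Prop :=
  ∃ C : ℝ, ∀ a E, P.Disj (P.Z a) E → |P.B (P.Z a) E| ≤ C * (P.deg E + 1)

/-- F-INV: `B` is a class function in each variable (equal degrees `≤ m - 2g`). -/
def InvStatement : Prop :=
  ∃ C : ℝ, ∀ D₁ D₂ E, P.deg D₁ = P.deg D₂ → P.deg D₁ + 2 * P.g ≤ P.m → P.cls D₁ = P.cls D₂ →
    P.Disj D₁ E → P.Disj D₂ E → |P.B D₁ E - P.B D₂ E| ≤ C * (P.deg E + 1)

/-- F-WD: a function `q` on `A` computing `-B/2` on all disjoint good representatives of
degree `d`. -/
def WDStatement (q : A → ℝ) : Prop :=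
  ∃ C : ℝ, ∀ (x : A) (D D' : P.Dv), P.deg D = P.d → P.deg D' = P.d → P.cls D = x → P.cls D' = x →
    P.Good D → P.Good D' → P.Disj D D' → |q x + P.B D D' / 2| ≤ C

/-- F-ELL: a quasi-additive function `l` on `A` computing `K - ((2g-2)/m) N` on good
representatives of degree `d`. -/
def EllStatement (l : A → ℝ) : Prop :=
  (∃ C : ℝ, ∀ (x : A) (D : P.Dv), P.deg D = P.d → P.cls D = x → P.Good D →
    |l x - (P.K D - ((2 * (P.g : ℝ) - 2) / P.m) * P.N D)| ≤ C) ∧
  ∃ C : ℝ, ∀ x y : A, |l (x + y) - l x - l y| ≤ C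

/-- F-KEY: the self-pairing formula `N D - δ D = -B(D,D₁)/2 - K D / 2 + (1 - d/m) N D + O(1)`. -/
def KeyStatement : Prop :=
  ∃ C : ℝ, ∀ (D D₁ : P.Dv), P.deg D = P.d → P.deg D₁ = P.d → P.cls D = P.cls D₁ →
    P.Good D → P.Good D₁ → P.Disj D D₁ →
    |P.N D - P.δ D - (-(P.B D D₁) / 2 - P.K D / 2 + (1 - (P.d : ℝ) / P.m) * P.N D)| ≤ C

/-- F-POS: the positivity inequality. -/
def PosStatement (q l : A → ℝ) : Prop :=
  ∃ C : ℝ, ∀ x : A, ∃ D' : P.Dv, P.deg D' = P.m - P.d ∧ P.cls D' = -x ∧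
    P.N D' ≤ (P.m / P.k) * (q x - l x / 2) + C

end PairingPackage

/-- F-QP: quasi-parallelogram law. -/
def QPStatement {A : Type} [AddCommGroup A] (q : A → ℝ) : Prop :=
  ∃ C : ℝ, ∀ x y : A, |q (x + y) + q (x - y) - 2 * q x - 2 * q y| ≤ C

/-- The output of the formal layer = the hypotheses of
`Fermat.Agent.S17.H737.descent_data_of_pairing_height`. -/
def EndStatement (A : Type) [AddCommGroup A] : Prop :=
  ∃ (q l ν : A → ℝ) (C c₁ c₂ : ℝ), 0 < c₁ ∧
    (∀ x y, |q (x + y) + q (x - y) - 2 * q x - 2 * q y| ≤ C) ∧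
    (∀ x y, |l (x + y) - l x - l y| ≤ C) ∧
    (∀ x, 0 ≤ ν x) ∧
    (∀ B : ℝ, {x : A | ν x ≤ B}.Finite) ∧
    (∀ x, ν (-x) ≤ c₁ * (q x - l x / 2) + c₂)

end Fermat.Agent.S17.H500
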