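import Fermat.Agent.S17.H500.Package
import Fermat.Agent.S17.H587.FormalB
import Fermat.Agent.S17.H637.Formal
import Fermat.Agent.S17.H199.Ell
import Fermat.Agent.S17.H924.Key
import Fermat.Agent.S17.H934.Pos
import Fermat.Agent.S17.H924.EndOf
import Fermat.Agent.S17.H17.Assembly
import Fermat.Agent.S17.H737.AbstractDescent
import Fermat.Agent.S17.H80.GenusZero

/-!
# S17 / tower H : the FORMAL layer, assembled (architect helper500)

Everything here is complete (no open leaf):

* `formal P : EndStatement A` for every `P : PairingPackage A`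
  (leaves F-B, F-INV `H587`, F-WD, F-QP `H637`, F-ELL `H199`, F-KEY `H924`, F-POS `H934`,
  F-END `H924`);
* `hasDescentHeight_of_package : PairingPackage (MW N) → HasDescentHeight N 2`
  (via `H737.descent_data_of_pairing_height`);
* `hasDescentHeight_of_genus_zero` (via `H80.pic0_eq_zero_of_genusR_eq_zero`);
* `hasDescentHeight_of_exists_package` : tower H is reduced to the single statement
  `1 ≤ genusR → Nonempty (PairingPackage (MW N))`  (the geometric layer / TOP-GLUE + WALL).
-/

set_option autoImplicit false

noncomputable section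

namespace Fermat.Agent.S17.H500

open Fermat.Agent.S17.H17 Fermat.Agent.Lib.RR ModularCurve AlgebraicCurve

/-- **The formal layer of tower H.** Every pairing package yields the hypotheses of the abstract
descent-height lemma `H737.descent_data_of_pairing_height`. -/
theorem formal {A : Type} [AddCommGroup A] (P : PairingPackage A) : EndStatement A := by
  have hBZ := Fermat.Agent.S17.H587.bz P
  have hInv := Fermat.Agent.S17.H587.inv P hBZ
  obtain ⟨q, hq⟩ := Fermat.Agent.S17.H637.wd P hInv
  obtain ⟨l, hl⟩ := Fermat.Agent.S17.H199.ell P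
  exact Fermat.Agent.S17.H924.end_of P q l (Fermat.Agent.S17.H637.qp P hBZ hInv q hq) hl
    (Fermat.Agent.S17.H934.pos P q l hq hl (Fermat.Agent.S17.H924.key P))

/-- A pairing package on the Mordell--Weil group gives the descent height. -/
theorem hasDescentHeight_of_package (N : ℕ) (P : PairingPackage (MW N)) :
    HasDescentHeight N 2 := by
  obtain ⟨q, l, ν, C, c₁, c₂, hc₁, hq, hl, hν0, hν, hpos⟩ := formal P
  exact Fermat.Agent.S17.H737.descent_data_of_pairing_height q l ν C c₁ c₂ hc₁ hq hl hν0 hν hpos

/-- The trivial descent height on a trivial group. -/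
theorem hasDescentHeight_of_subsingleton (N : ℕ) [Subsingleton (MW N)] :
    HasDescentHeight N 2 := by
  refine ⟨fun _ => 0, 0, 1, 0, fun _ => 0, le_refl _, zero_lt_one, ?_, ?_, ?_⟩
  · intro B
    exact Set.toFinite _
  · intro g x; simp
  · intro x; simp

/-- Genus zero: `J₀(N)` is trivial. -/
theorem hasDescentHeight_of_genus_zero (N : ℕ) [NeZero N]
    (hg0 : genusR (AlgebraicClosure ℚ) (modularFunctionFieldBar N) = 0) :
    HasDescentHeight N 2 := by
  have : Subsingleton (JZero N) :=
    ⟨fun x y => (Fermat.Agent.S17.H80.pic0_eq_zero_of_genusR_eq_zero hg0 x).trans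
      (Fermat.Agent.S17.H80.pic0_eq_zero_of_genusR_eq_zero hg0 y).symm⟩
  have : Subsingleton (MW N) := ⟨fun x y => Subtype.ext (Subsingleton.elim _ _)⟩
  exact hasDescentHeight_of_subsingleton N

/-- **Tower H, reduced to the existence of a pairing package in genus `≥ 1`.** -/
theorem hasDescentHeight_of_exists_package (N : ℕ) [NeZero N]
    (h : 1 ≤ genusR (AlgebraicClosure ℚ) (modularFunctionFieldBar N) →
      Nonempty (PairingPackage (MW N))) :
    HasDescentHeight N 2 := by
  by_cases hg : 1 ≤ genusR (AlgebraicClosure ℚ) (modularFunctionFieldBar N)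
  · obtain ⟨P⟩ := h hg
    exact hasDescentHeight_of_package N P
  · exact hasDescentHeight_of_genus_zero N (by omega)

end Fermat.Agent.S17.H500
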