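import Fermat.Agent.S17.H500.TopData
import Fermat.Agent.S17.H500.Formal

/-!
# S17 / tower H : TOP-GLUE, the master statement (architect helper500)

* `hasDescentHeight_of_leaves` : `HasDescentHeight N 2` from a `TopInput` for `X₀(N)` and the
  leaves of TOP-GLUE (`Top.Leaves I`, one `Prop` per field of the pairing package).
* `GaussPlusStatement F₀ E` : the interface with the GAUSS team (existence of `Rt`, `c`);
  `TopInput.ofGauss` builds a `TopInput` from it.
* `Top.Goal N` : what remains to be proved for tower H in genus `≥ 1`;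
  `hasDescentHeight_of_goal` : tower H from it (genus zero is done).

Everything here is complete.
-/

set_option autoImplicit false

noncomputable section

open AlgebraicCurve

namespace Fermat.Agent.S17.H500.Top

open Fermat.Agent.Lib.RR Fermat.Agent.S17.HWall Fermat.Agent.S17.HContract
open Fermat.Agent.S17.H77 Fermat.Agent.S17.H680 Fermat.Agent.S17.H980 ModularCurve

/-- **TOP-GLUE, master statement.** -/
theorem hasDescentHeight_of_leaves (N : ℕ) [NeZero N]
    (I : TopInput (modularFunctionFieldFull N))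
    (h : Leaves I) : Fermat.Agent.S17.H17.HasDescentHeight N 2 :=
  hasDescentHeight_of_package N (mkPackage I h)

variable (F₀ : IntermediateField ℚ (LaurentSeries ℚ)) [FF1 Qb (laurentBaseChange Qb F₀)]

/-- **(GAUSS⁺), interface with the GAUSS team**: `κ(P) = (Rt . P) - c (∞ . P) + O(1)` for an
effective Galois-invariant divisor `Rt` prime to `∞` with `deg Rt = 2g - 2 + c`
(`Rt - c ∞ = div(dt)` for a Galois-fixed coordinate `t`). -/
def GaussPlusStatement (E : EmbData Qb (laurentBaseChange Qb F₀)) : Prop :=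
  ∃ (Rt : Divisor Qb (laurentBaseChange Qb F₀)) (c : ℕ) (C : ℝ),
    0 ≤ Rt ∧ IsInvariant F₀ Rt ∧ Rt E.vinf = 0 ∧
    Divisor.degree Rt = 2 * (genusR Qb (laurentBaseChange Qb F₀) : ℤ) - 2 + c ∧
    ∀ P : Place Qb (laurentBaseChange Qb F₀), Rt P = 0 → P ≠ E.vinf →
      |kap E P - (pairPt E Rt P - (c : ℝ) * hD E E.vinf P)| ≤ C

variable {F₀}

/-- A `TopInput` from an embedding and (GAUSS⁺). -/
theorem exists_topInput (E : EmbData Qb (laurentBaseChange Qb F₀))
    (hxfix : ∀ i, IsFixed F₀ (E.x i)) (hinf : IsInvariant F₀ (prim E.vinf))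
    (hx0 : E.x 0 = 1) (d : ℕ)
    (hg : 1 ≤ genusR Qb (laurentBaseChange Qb F₀))
    (hd : 2 * genusR Qb (laurentBaseChange Qb F₀) ≤ d)
    (hm : 4 * d + 2 * genusR Qb (laurentBaseChange Qb F₀) ≤ E.m)
    (hG : GaussPlusStatement F₀ E) :
    ∃ I : TopInput F₀, I.E = E ∧ I.d = d ∧ GaussPlus I := by
  obtain ⟨Rt, c, C, h0, hinv, hRinf, hdeg, hb⟩ := hG
  exact ⟨⟨E, hxfix, hinf, hx0, d, Rt, h0, hinv, hRinf, c, hdeg, hg, hd, hm⟩, rfl, rfl, C, hb⟩

/-- **What remains to be proved for tower H** (genus `≥ 1`): an input with all its leaves. -/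
def Goal (N : ℕ) [NeZero N] : Prop :=
  1 ≤ genusR Qb (laurentBaseChange Qb (modularFunctionFieldFull N)) →
    ∃ I : TopInput (modularFunctionFieldFull N), Leaves I

/-- **Tower H from the goal of TOP-GLUE.** -/
theorem hasDescentHeight_of_goal (N : ℕ) [NeZero N] (h : Goal N) :
    Fermat.Agent.S17.H17.HasDescentHeight N 2 := by
  refine hasDescentHeight_of_exists_package N fun hg => ?_
  obtain ⟨I, hI⟩ := h hg
  exact ⟨mkPackage I hI⟩

end Fermat.Agent.S17.H500.Top
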