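import Fermat.Agent.S17.H500.Package
import Fermat.Agent.S17.H17.HContract
import Fermat.Agent.S17.H980.Mov2

/-!
# S17 / tower H : TOP-GLUE, the concrete data (architect helper500)

`Contract E E d₀` (WALL) + geometry  ⟹  `PairingPackage (MWG F₀)`  (input of the formal layer,
`S17/H500/Formal.lean`).  For `F₀ = modularFunctionFieldFull N` one has `MWG F₀ = MW N` (`rfl`).

* `TopInput F₀` : one embedding `E` (Galois-fixed basis, `x₀ = 1`, `∞` invariant), the degree `d`
  of the representatives, the ramification divisor `Rt ≥ 0` (invariant, prime to `∞`) and the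
  integer `c` with `deg Rt = 2g - 2 + c`  (`div(dt) = Rt - c ∞`).
* data: `Dv` (effective invariant divisors), `degHom`, `clsHom`, `Disj`, `Good`, `naive`, `pair`,
  `del`, `Ksum`, `Pl`, `Lin`, `htL`, `ZL`, `infD`, `oneL`, `RtD`.
* `GaussPlus I` : the form of (GAUSS) needed by TOP  (`K₀ = Rt - c ∞`).
* `Mov1Statement I`, `NorthcottStatement I` : the two geometric inputs not yet on main.
* one `Prop` per field of `PairingPackage` (`…Leaf I`), `structure Leaves I`, and
  `mkPackage I (h : Leaves I) : PairingPackage (MWG F₀)`.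

Everything here is complete (definitions + the constructor).
-/

set_option autoImplicit false

noncomputable section

open AlgebraicCurve

namespace Fermat.Agent.S17.H500.Top

open Fermat.Agent.Lib.RR Fermat.Agent.S17.HWall Fermat.Agent.S17.HContract
open Fermat.Agent.S17.H77 Fermat.Agent.S17.H680 Fermat.Agent.S17.H980 ModularCurve

variable (F₀ : IntermediateField ℚ (LaurentSeries ℚ)) [FF1 Qb (laurentBaseChange Qb F₀)]

/-- The Mordell--Weil group `Pic⁰(F)^{G_ℚ}`. -/
abbrev MWG : AddSubgroup (Pic0 Qb (laurentBaseChange Qb F₀)) :=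
  FixedPoints.addSubgroup GQ (Pic0 Qb (laurentBaseChange Qb F₀))

/-- The input of TOP-GLUE. -/
structure TopInput where
  /-- the embedding -/
  E : EmbData Qb (laurentBaseChange Qb F₀)
  xfix : ∀ i, IsFixed F₀ (E.x i)
  inf_inv : IsInvariant F₀ (prim E.vinf)
  x_zero : E.x 0 = 1
  /-- degree of the representatives -/
  d : ℕ
  /-- finite ramification divisor of the coordinate `t` -/
  Rt : Divisor Qb (laurentBaseChange Qb F₀)
  Rt_nonneg : 0 ≤ Rt
  Rt_inv : IsInvariant F₀ Rt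
  Rt_inf : Rt E.vinf = 0
  /-- pole order of `dt` at `∞` -/
  c : ℕ
  deg_Rt : Divisor.degree Rt = 2 * (genusR Qb (laurentBaseChange Qb F₀) : ℤ) - 2 + c
  one_le_g : 1 ≤ genusR Qb (laurentBaseChange Qb F₀)
  two_g_le_d : 2 * genusR Qb (laurentBaseChange Qb F₀) ≤ d
  four_d_le_m : 4 * d + 2 * genusR Qb (laurentBaseChange Qb F₀) ≤ E.m

/-- Effective Galois-invariant divisors. -/
def DvSub : AddSubmonoid (Divisor Qb (laurentBaseChange Qb F₀)) where
  carrier := {D | 0 ≤ D ∧ IsInvariant F₀ D}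
  zero_mem' := ⟨le_refl _, fun _ => smul_zero _⟩
  add_mem' := by
    rintro D E ⟨hD, hDi⟩ ⟨hE, hEi⟩
    exact ⟨add_nonneg hD hE, fun σ => by rw [smul_add, hDi σ, hEi σ]⟩

/-- Effective Galois-invariant divisors, as a type. -/
abbrev Dv : Type := DvSub F₀

variable {F₀}

theorem Dv.nonneg (D : Dv F₀) : 0 ≤ (D : Divisor Qb (laurentBaseChange Qb F₀)) := D.2.1

theorem Dv.inv (D : Dv F₀) : IsInvariant F₀ (D : Divisor Qb (laurentBaseChange Qb F₀)) := D.2.2

/-- The degree of an effective divisor, as a natural number. -/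
def degHom : Dv F₀ →+ ℕ where
  toFun D := (Divisor.degree (D : Divisor Qb (laurentBaseChange Qb F₀))).toNat
  map_zero' := by simp
  map_add' D E := by
    have h1 := degree_nonneg D.nonneg
    have h2 := degree_nonneg E.nonneg
    rw [AddSubmonoid.coe_add, map_add]
    omega

theorem coe_degHom (D : Dv F₀) :
    ((degHom D : ℕ) : ℤ) = Divisor.degree (D : Divisor Qb (laurentBaseChange Qb F₀)) := by
  have h1 := degree_nonneg D.nonneg
  show ((Divisor.degree (D : Divisor Qb (laurentBaseChange Qb F₀))).toNat : ℤ) = _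
  omega

variable (I : TopInput F₀)

/-- `D - deg D • ∞`, of degree zero. -/
def TopInput.zeroPart (D : Dv F₀) : Divisor.degZero (K := Qb) (F := laurentBaseChange Qb F₀) :=
  ⟨(D : Divisor Qb (laurentBaseChange Qb F₀)) - degHom D • prim I.E.vinf, by
    rw [Divisor.mem_degZero, map_sub, map_nsmul, degree_prim _ (deg_eq_one _), ← coe_degHom]
    simp⟩

theorem TopInput.coe_zeroPart (D : Dv F₀) :
    (I.zeroPart D : Divisor Qb (laurentBaseChange Qb F₀)) =
      (D : Divisor Qb (laurentBaseChange Qb F₀)) - degHom D • prim I.E.vinf := rfl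

theorem TopInput.zeroPart_add (D E : Dv F₀) : I.zeroPart (D + E) = I.zeroPart D + I.zeroPart E := by
  apply Subtype.ext
  rw [AddSubgroup.coe_add, I.coe_zeroPart, I.coe_zeroPart, I.coe_zeroPart, map_add,
    AddSubmonoid.coe_add, add_smul]
  abel

theorem TopInput.zeroPart_zero : I.zeroPart 0 = 0 := by
  apply Subtype.ext
  rw [I.coe_zeroPart, map_zero]
  simp

theorem TopInput.smul_zeroPart (σ : GQ) (D : Dv F₀) :
    arithmeticGalois F₀ σ • (I.zeroPart D : Divisor Qb (laurentBaseChange Qb F₀)) =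
      I.zeroPart D := by
  rw [I.coe_zeroPart, smul_sub, D.inv σ, smul_comm, I.inf_inv σ]

/-- The class of `D - deg D • ∞` in the Mordell--Weil group. -/
def TopInput.clsHom : Dv F₀ →+ MWG F₀ where
  toFun D := ⟨Pic0.mk (I.zeroPart D), by
    intro σ
    show σ • Pic0.mk (I.zeroPart D) = Pic0.mk (I.zeroPart D)
    rw [galois_smul_pic0_def, SemilinearAut.pic0_smul_mk]
    exact congrArg Pic0.mk (Subtype.ext (by
      rw [SemilinearAut.coe_degZeroSMulHom, I.smul_zeroPart]))⟩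
  map_zero' := by
    apply Subtype.ext
    show Pic0.mk (I.zeroPart 0) = 0
    rw [I.zeroPart_zero]
    rfl
  map_add' D E := by
    apply Subtype.ext
    show Pic0.mk (I.zeroPart (D + E)) = Pic0.mk (I.zeroPart D) + Pic0.mk (I.zeroPart E)
    rw [I.zeroPart_add, Pic0.mk_add]

theorem TopInput.coe_clsHom (D : Dv F₀) :
    ((I.clsHom D : MWG F₀) : Pic0 Qb (laurentBaseChange Qb F₀)) = Pic0.mk (I.zeroPart D) := rfl

/-- Disjoint supports. -/
def Disj (D E : Dv F₀) : Prop :=
  ∀ P : Place Qb (laurentBaseChange Qb F₀),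
    (D : Divisor Qb (laurentBaseChange Qb F₀)) P = 0 ∨
      (E : Divisor Qb (laurentBaseChange Qb F₀)) P = 0

/-- Generic divisors: reduced, prime to `∞` and to `Rt`. -/
def TopInput.Good (D : Dv F₀) : Prop :=
  (∀ P, (D : Divisor Qb (laurentBaseChange Qb F₀)) P ≤ 1) ∧
    (D : Divisor Qb (laurentBaseChange Qb F₀)) I.E.vinf = 0 ∧
    ∀ P, (D : Divisor Qb (laurentBaseChange Qb F₀)) P = 0 ∨ I.Rt P = 0

/-- The naive height `N(D) = Σ D(P) h(pt P)`. -/
def TopInput.N (D : Dv F₀) : ℝ := naive I.E (D : Divisor Qb (laurentBaseChange Qb F₀))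

/-- The diagonal pairing `(D . E) = Σ D(A) E(P) hD(A, P)`. -/
def TopInput.pr (D E : Dv F₀) : ℝ :=
  pair I.E (D : Divisor Qb (laurentBaseChange Qb F₀)) (E : Divisor Qb (laurentBaseChange Qb F₀))

open Classical in
/-- The off-diagonal self pairing `δ(D) = ½ Σ_{P ≠ Q} D(P) D(Q) hD(P, Q)`. -/
def TopInput.del (D : Dv F₀) : ℝ :=
  (1 / 2 : ℝ) * ∑ P ∈ (D : Divisor Qb (laurentBaseChange Qb F₀)).support,
    ∑ Q ∈ (D : Divisor Qb (laurentBaseChange Qb F₀)).support,
      if P = Q then 0 else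
        ((D : Divisor Qb (laurentBaseChange Qb F₀)) P : ℝ) *
          ((D : Divisor Qb (laurentBaseChange Qb F₀)) Q : ℝ) * hD I.E P Q

/-- The tangent term `K(D) = Σ D(P) κ(P)`. -/
def TopInput.Ksum (D : Dv F₀) : ℝ :=
  (D : Divisor Qb (laurentBaseChange Qb F₀)).sum fun P n => (n : ℝ) * kap I.E P

/-- An enumeration of the support of a divisor. -/
def enum (D : Divisor Qb (laurentBaseChange Qb F₀)) :
    Fin D.support.card → Place Qb (laurentBaseChange Qb F₀) :=
  fun i => (D.support.equivFin.symm i : Place Qb (laurentBaseChange Qb F₀))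

theorem enum_injective (D : Divisor Qb (laurentBaseChange Qb F₀)) :
    Function.Injective (enum D) := fun _ _ h =>
  D.support.equivFin.symm.injective (Subtype.ext h)

theorem enum_mem (D : Divisor Qb (laurentBaseChange Qb F₀)) (i : Fin D.support.card) :
    enum D i ∈ D.support := (D.support.equivFin.symm i).2

theorem exists_enum_eq (D : Divisor Qb (laurentBaseChange Qb F₀))
    {P : Place Qb (laurentBaseChange Qb F₀)} (hP : P ∈ D.support) : ∃ i, enum D i = P :=
  ⟨D.support.equivFin ⟨P, hP⟩, by simp [enum]⟩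

/-- The Plücker height of the points of the support of `D`. -/
def TopInput.Pl (D : Dv F₀) : ℝ :=
  ht (plucker fun i => I.E.pt (enum (D : Divisor Qb (laurentBaseChange Qb F₀)) i))

/-- Nonzero rational linear forms. -/
abbrev TopInput.Lin : Type := {a : Fin (I.E.r + 1) → ℚ // a ≠ 0}

/-- The height of a rational form. -/
def TopInput.htL (a : I.Lin) : ℝ := ht (castQ a.1)

/-- The hyperplane section of a rational form. -/
def TopInput.ZL (a : I.Lin) : Dv F₀ :=
  ⟨I.E.Z (castQ a.1), I.E.Z_nonneg _, isInvariant_Z F₀ I.E I.xfix I.inf_inv a.1⟩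

theorem TopInput.coe_ZL (a : I.Lin) :
    (I.ZL a : Divisor Qb (laurentBaseChange Qb F₀)) = I.E.Z (castQ a.1) := rfl

/-- The point at infinity. -/
def TopInput.infD : Dv F₀ := ⟨prim I.E.vinf, prim_nonneg _, I.inf_inv⟩

/-- The constant function `1 = x₀`. -/
def TopInput.oneL : I.Lin := ⟨Pi.single 0 1, fun h => by
  have := congrFun h 0
  simp at this⟩

/-- The ramification divisor. -/
def TopInput.RtD : Dv F₀ := ⟨I.Rt, I.Rt_nonneg, I.Rt_inv⟩

/-! ## The inputs which are not yet on main -/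

/-- **(GAUSS⁺)**: the form of (GAUSS) consumed by TOP: `K₀ = Rt - c ∞` with `Rt ≥ 0` invariant.
(`Rt` = ramification divisor of a Galois-fixed coordinate `t` with only pole `∞`, `c - 1` = its
pole order.) -/
def GaussPlus : Prop :=
  ∃ C : ℝ, ∀ P : Place Qb (laurentBaseChange Qb F₀), I.Rt P = 0 → P ≠ I.E.vinf →
    |kap I.E P - (pairPt I.E I.Rt P - (I.c : ℝ) * hD I.E I.E.vinf P)| ≤ C

/-- **(Mov1)**: every rational class has a reduced invariant effective representative of degree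
`d` avoiding any finite set of places. -/
def Mov1Statement : Prop :=
  ∀ (x : MWG F₀) (T : Finset (Place Qb (laurentBaseChange Qb F₀))),
    ∃ D : Dv F₀, degHom D = I.d ∧ I.clsHom D = x ∧
      (∀ P, (D : Divisor Qb (laurentBaseChange Qb F₀)) P ≤ 1) ∧
      ∀ P ∈ T, (D : Divisor Qb (laurentBaseChange Qb F₀)) P = 0

/-- **(Northcott)** for effective invariant divisors of bounded degree. -/
def NorthcottStatement : Prop :=
  ∀ (e : ℕ) (B : ℝ), {D : Dv F₀ | degHom D ≤ e ∧ I.N D ≤ B}.Finite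

/-! ## One statement per field of `PairingPackage` -/

/-- the structural fields -/
structure StructLeaf : Prop where
  disj_symm : ∀ D E : Dv F₀, Disj D E → Disj E D
  disj_zero : ∀ E : Dv F₀, Disj 0 E
  disj_add_left : ∀ D₁ D₂ E : Dv F₀, Disj (D₁ + D₂) E ↔ Disj D₁ E ∧ Disj D₂ E
  deg_inf : degHom I.infD = 1
  cls_inf : I.clsHom I.infD = 0
  deg_Z : ∀ a, degHom (I.ZL a) = I.E.m
  cls_Z : ∀ a, I.clsHom (I.ZL a) = 0
  Z_one : I.ZL I.oneL = I.E.m • I.infD
  ht_one : I.htL I.oneL = 0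
  good_disj_inf : ∀ D, I.Good D → Disj D I.infD
  good_disj_Rt : ∀ D, I.Good D → Disj D I.RtD
  N_add : ∀ D E, I.N (D + E) = I.N D + I.N E
  N_nonneg : ∀ D, 0 ≤ I.N D
  pr_symm : ∀ D E, I.pr D E = I.pr E D
  pr_add : ∀ D₁ D₂ E, Disj (D₁ + D₂) E → I.pr (D₁ + D₂) E = I.pr D₁ E + I.pr D₂ E

/-- field `mov1` -/
def Mov1Leaf : Prop :=
  ∀ (x : MWG F₀) (T : Dv F₀), ∃ D, degHom D = I.d ∧ I.clsHom D = x ∧ Disj D T ∧ I.Good D

/-- field `mov2` -/
def Mov2Leaf : Prop :=
  ∀ D₁ D₂ : Dv F₀, degHom D₁ = degHom D₂ →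
    degHom D₁ + 2 * genusR Qb (laurentBaseChange Qb F₀) ≤ I.E.m →
    I.clsHom D₁ = I.clsHom D₂ → ∀ T : Dv F₀,
    ∃ (R : Dv F₀) (a₁ a₂ : I.Lin), I.ZL a₁ = D₁ + R ∧ I.ZL a₂ = D₂ + R ∧ Disj R T

/-- field `e3` -/
def E3Leaf : Prop :=
  ∃ C : ℝ, ∀ (a : I.Lin) (E : Dv F₀), Disj (I.ZL a) E →
    |I.pr (I.ZL a) E - (degHom E * I.htL a + I.N E)| ≤ C * degHom E

/-- field `bez` -/
def BezLeaf : Prop :=
  ∃ C : ℝ, ∀ a : I.Lin, |I.N (I.ZL a) - I.E.m * I.htL a| ≤ C

/-- field `adj` -/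
def AdjLeaf : Prop :=
  ∃ C : ℝ, ∀ (a : I.Lin) (D D' : Dv F₀), I.Good D → I.ZL a = D + D' → Disj D D' →
    |2 * I.del D - I.Ksum D + I.pr D' D - (degHom D * I.htL a + I.N D)| ≤ C * degHom D

/-- field `gauss` -/
def GaussLeaf : Prop :=
  ∃ C : ℝ, ∀ D : Dv F₀, I.Good D →
    |I.Ksum D - (I.pr I.RtD D -
        (((degHom I.RtD : ℝ) - (2 * genusR Qb (laurentBaseChange Qb F₀) - 2)) / I.E.m) * I.N D)|
      ≤ C * degHom D

/-- field `vdm` -/
def VdmLeaf : Prop :=
  ∃ C : ℝ, ∀ D : Dv F₀, I.Good D → degHom D = I.d → I.Pl D ≤ I.N D - I.del D + C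

/-- field `mink` -/
def MinkLeaf : Prop :=
  ∃ C : ℝ, ∀ D : Dv F₀, I.Good D → degHom D = I.d →
    ∃ (a : I.Lin) (D' : Dv F₀), I.ZL a = D + D' ∧
      ((I.E.m : ℝ) - I.d + 1 - genusR Qb (laurentBaseChange Qb F₀)) * I.htL a ≤ I.Pl D + C

/-- All leaves of TOP-GLUE. -/
structure Leaves : Prop where
  str : StructLeaf I
  northcott : NorthcottStatement I
  mov1 : Mov1Leaf I
  mov2 : Mov2Leaf I
  e3 : E3Leaf I
  bez : BezLeaf I
  adj : AdjLeaf I
  gauss : GaussLeaf I
  vdm : VdmLeaf I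
  mink : MinkLeaf I

/-- **The pairing package of TOP-GLUE.** -/
def mkPackage (h : Leaves I) : PairingPackage (MWG F₀) where
  Dv := Dv F₀
  deg := degHom
  cls := I.clsHom
  Disj := Disj
  Good := I.Good
  N := I.N
  pr := I.pr
  δ := I.del
  K := I.Ksum
  Pl := I.Pl
  Lin := I.Lin
  ht := I.htL
  Z := I.ZL
  m := I.E.m
  d := I.d
  g := genusR Qb (laurentBaseChange Qb F₀)
  inf := I.infD
  one := I.oneL
  Rt := I.RtD
  one_le_g := I.one_le_g
  two_g_le_d := I.two_g_le_d
  four_d_le_m := I.four_d_le_m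
  disj_symm := h.str.disj_symm
  disj_zero := h.str.disj_zero
  disj_add_left := h.str.disj_add_left
  deg_inf := h.str.deg_inf
  cls_inf := h.str.cls_inf
  deg_Z := h.str.deg_Z
  cls_Z := h.str.cls_Z
  Z_one := h.str.Z_one
  ht_one := h.str.ht_one
  good_disj_inf := h.str.good_disj_inf
  good_disj_Rt := h.str.good_disj_Rt
  N_add := h.str.N_add
  N_nonneg := h.str.N_nonneg
  pr_symm := h.str.pr_symm
  pr_add := h.str.pr_add
  northcott := h.northcott
  mov1 := h.mov1
  mov2 := h.mov2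
  e3 := h.e3
  bez := h.bez
  adj := h.adj
  gauss := h.gauss
  vdm := h.vdm
  mink := h.mink

end Fermat.Agent.S17.H500.Top
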