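import Fermat.Agent.S17.H500.Formal
import Fermat.Agent.S17.H35.TopAxioms
import Fermat.Agent.S17.H77.EmbGal

/-!
# S17 / tower H : FINAL WIRING of TOP (architect helper500)

Canonical data: `H736.TopInput N` (`S17/H736/TopData.lean`), adapters `H35` (`TopAxioms.lean`),
embedding `H77.exists_embData_cusp`, formal layer `H500.formal`.

* `OpenInputs N` : the inputs of tower H which are NOT yet on main, in their external form
  (WALL: `E3`, `ADJ`, `VDM` for one embedding of degree `≥ 4g + 1`; GAUSS in the form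
  `H35.GaussRtStatement`; the adapters `Northcott`, `Mov1`, `Mov2`, `Mink` of `H736`);
* `hasDescentHeight_of_openInputs : OpenInputs N → HasDescentHeight N 2`.

Choice of the parameters: `d = 2g`, `m = 10g`, `d₀ = d`, `E₁ = E₂ = E`.
Everything here is complete.
-/

set_option autoImplicit false

noncomputable section

open AlgebraicCurve ModularCurve

namespace Fermat.Agent.S17.H500.Final

open Fermat.Agent.Lib.RR Fermat.Agent.S17.HWall Fermat.Agent.S17.HContract
open Fermat.Agent.S17.H77 Fermat.Agent.S17.H680 Fermat.Agent.S17.H736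

/-- The inputs of tower H (genus `≥ 1`) which are not yet on main. -/
structure OpenInputs (N : ℕ) [NeZero N] : Prop where
  wall_e3 : ∀ E : EmbData Qb (modularFunctionFieldBar N),
    4 * genusR Qb (modularFunctionFieldBar N) + 1 ≤ E.m → E3Statement E E
  wall_adj : ∀ E : EmbData Qb (modularFunctionFieldBar N),
    4 * genusR Qb (modularFunctionFieldBar N) + 1 ≤ E.m → ADJStatement E E
  wall_vdm : ∀ (E : EmbData Qb (modularFunctionFieldBar N)) (d₀ : ℕ),
    4 * genusR Qb (modularFunctionFieldBar N) + 1 ≤ E.m →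
    d₀ + 2 * genusR Qb (modularFunctionFieldBar N) ≤ E.m + 1 → VDMStatement E E d₀
  gauss : ∀ E : EmbData Qb (modularFunctionFieldBar N), E.vinf = JZero.cusp N →
    (∀ i, IsFixed (modularFunctionFieldFull N) (E.x i)) →
    4 * genusR Qb (modularFunctionFieldBar N) + 1 ≤ E.m →
    E.pt = Fermat.Agent.S17.H230.ptD (E.m • prim (JZero.cusp N)) E.x →
    E.tn = Fermat.Agent.S17.H230.tnD (E.m • prim (JZero.cusp N)) E.x →
    ∃ Rt : Divisor Qb (modularFunctionFieldBar N), 0 ≤ Rt ∧
      IsInvariant (modularFunctionFieldFull N) Rt ∧ Rt (JZero.cusp N) = 0 ∧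
      Fermat.Agent.S17.H35.GaussRtStatement E Rt
        (Divisor.degree Rt - (2 * (genusR Qb (modularFunctionFieldBar N) : ℤ) - 2))
  northcott : ∀ T : TopInput N, T.NorthcottStatement
  mov1 : ∀ T : TopInput N, T.Mov1Statement
  mov2 : ∀ T : TopInput N, T.Mov2Statement
  mink : ∀ T : TopInput N, T.MinkStatement

/-- The pairing package of `J₀(N)` in genus `≥ 1`. -/
theorem exists_package_of_openInputs (N : ℕ) [NeZero N] (h : OpenInputs N)
    (hg : 1 ≤ genusR Qb (modularFunctionFieldBar N)) :
    Nonempty (PairingPackage (Fermat.Agent.S17.H17.MW N)) := by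
  obtain ⟨E, hvinf, hm, hxfix, -, hx0, -, -, hpt, htn⟩ :=
    exists_embData_cusp N (10 * genusR Qb (modularFunctionFieldBar N)) (by omega)
  have hBig : 4 * genusR Qb (modularFunctionFieldBar N) + 1 ≤ E.m := by omega
  obtain ⟨Rt, hRt0, hRtinv, hRtinf, hG⟩ :=
    h.gauss E hvinf hxfix hBig (by rw [hm] at *; exact hpt) (by rw [hm] at *; exact htn)
  let T : TopInput N :=
    { E₁ := E
      E₂ := E
      vinf₁ := hvinf
      vinf₂ := hvinf
      x_fixed := hxfix
      i₀ := 0
      x_one := hx0
      Rt := Rt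
      Rt_nonneg := hRt0
      Rt_inv := hRtinv
      Rt_inf := hRtinf
      d := 2 * genusR Qb (modularFunctionFieldBar N)
      one_le_g := hg
      two_g_le_d := le_refl _
      four_d_le_m := by omega }
  have he3 : E3Statement T.E₁ T.E₂ := h.wall_e3 E hBig
  have hadj : ADJStatement T.E₁ T.E₂ := h.wall_adj E hBig
  have hvdm : VDMStatement T.E₁ T.E₂ T.d :=
    h.wall_vdm E (2 * genusR Qb (modularFunctionFieldBar N)) hBig (by omega)
  exact ⟨T.mkPackage (h.northcott T) (h.mov1 T) (h.mov2 T)
    (Fermat.Agent.S17.H35.e3 T he3) (Fermat.Agent.S17.H35.bez_top T he3)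
    (Fermat.Agent.S17.H35.adj T hadj) (Fermat.Agent.S17.H35.gauss T he3 hG)
    (Fermat.Agent.S17.H35.vdm T hvdm (le_refl _)) (h.mink T)⟩

/-- **Tower H from the open inputs.** -/
theorem hasDescentHeight_of_openInputs (N : ℕ) [NeZero N] (h : OpenInputs N) :
    Fermat.Agent.S17.H17.HasDescentHeight N 2 :=
  hasDescentHeight_of_exists_package N fun hg => exists_package_of_openInputs N h hg

end Fermat.Agent.S17.H500.Final
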