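import Fermat.Agent.S17.H500.TopFinal2
import Fermat.Agent.S17.H710.Wall.Main

/-!
# S17 / tower H : everything but the `Rt`-bridge (architect helper500)

The WALL (`Wall.e3_main`, `adj_main`, `vdm_main`, helper710) is on main, so tower H is reduced
to the single statement `GaussRtInput N` (the `Rt`-bridge: GAUSS at `div(dt)` for a Galois-fixed
coordinate `t`, with `Rt = div(dt) + c ∞`):

* `hasDescentHeight_of_gaussRt : GaussRtInput N → HasDescentHeight N 2`.

Everything here is complete.
-/

set_option autoImplicit false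

noncomputable section

open AlgebraicCurve ModularCurve

namespace Fermat.Agent.S17.H500.Final

open Fermat.Agent.Lib.RR Fermat.Agent.S17.HWall Fermat.Agent.S17.HContract
open Fermat.Agent.S17.H77 Fermat.Agent.S17.H680 Fermat.Agent.S17.H736

/-- **The last open input of tower H**: the `Rt`-bridge. -/
def GaussRtInput (N : ℕ) [NeZero N] : Prop :=
  ∀ E : EmbData Qb (modularFunctionFieldBar N), E.vinf = JZero.cusp N →
    (∀ i, IsFixed (modularFunctionFieldFull N) (E.x i)) →
    4 * genusR Qb (modularFunctionFieldBar N) + 1 ≤ E.m →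
    E.pt = Fermat.Agent.S17.H230.ptD (E.m • prim (JZero.cusp N)) E.x →
    E.tn = Fermat.Agent.S17.H230.tnD (E.m • prim (JZero.cusp N)) E.x →
    ∃ Rt : Divisor Qb (modularFunctionFieldBar N), 0 ≤ Rt ∧
      IsInvariant (modularFunctionFieldFull N) Rt ∧ Rt (JZero.cusp N) = 0 ∧
      Fermat.Agent.S17.H35.GaussRtStatement E Rt
        (Divisor.degree Rt - (2 * (genusR Qb (modularFunctionFieldBar N) : ℤ) - 2))

/-- The wall inputs from the `Rt`-bridge. -/
theorem wallInputs_of_gaussRt (N : ℕ) [NeZero N] (hG : GaussRtInput N) : WallInputs N := by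
  have : Algebra.IsAlgebraic ℚ Qb := isAlgebraic_Qb
  exact
    { wall_e3 := fun E hE => Fermat.Agent.S17.Wall.e3_main E hE
      wall_adj := fun E hE => Fermat.Agent.S17.Wall.adj_main E hE
      wall_vdm := fun E d₀ hE hd => Fermat.Agent.S17.Wall.vdm_main E hE d₀ hd
      gauss := hG }

/-- **Tower H from the `Rt`-bridge.** -/
theorem hasDescentHeight_of_gaussRt (N : ℕ) [NeZero N] (hG : GaussRtInput N) :
    Fermat.Agent.S17.H17.HasDescentHeight N 2 :=
  hasDescentHeight_of_wallInputs N (wallInputs_of_gaussRt N hG)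

end Fermat.Agent.S17.H500.Final
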